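import Fermat.Agent.LT.T7.H534.DownBasisSpec
import Fermat.Agent.LT.T2.H886.CuspAlg
import Fermat.Agent.LT.T2.H314.CommCore

/-!
# Row LT, tower T7, leaf T7.L2.3.5.2 (`SD534.WSubC`) -- helper863, OFF-MAIN

The frozen Prop `Fermat.Agent.LT.T7.SD534.WSubC K` (VERBATIM, from
`Fermat/Agent/LT/T7/H534/DownBasisSpec.lean`): `V` (cusp functions of T5), `W` (invariant cusp
functions, `T7.IsWFn`) and the eigen-classes (`T7.IsEigFn`) are closed under `+` and scalar
multiplication, and `0 ∈ W`.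

Every condition is linear.  The two analytic points:
* the constant term (`A0.IsCuspidalFn`): a bounded continuous function is integrable on every
  fundamental domain of `K` in `𝔸_K` (finite measure) -- asset `T2/H886/CuspAlg.lean`
  (`isCuspidalFn_add886`, helper886, byte-identical copy);
* the sphere means (`T7.MeanEig`): the parametrisation `(α, β) ↦ Y α β` of a sphere is continuous
  -- asset `T2/H314/CommCore.lean` (`continuous_sphere314`, helper314, byte-identical copy).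

Every proof is complete.
-/

set_option autoImplicit false
set_option linter.unusedSectionVars false

open AutomorphicForm IsDedekindDomain NumberField MeasureTheory

noncomputable section

namespace Fermat.Agent.LT.T7.H863

open Fermat.Agent.LT Fermat.Agent.LT.H556 Fermat.Agent.LT.H556.A0 Fermat.Agent.LT.T7
open Fermat.Agent.LT.T7.SD534

variable {K : Type} [Field K] [NumberField K]

/-! ## 1. Automorphic functions -/

theorem isAutomorphicFn_zero_863 (𝔫 : Ideal (𝓞 K)) (τ : G K → ℂ) (r : G K) :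
    T5.IsAutomorphicFn 𝔫 τ r (0 : G K → ℂ) where
  left_inv := fun _ _ => rfl
  level_inv := fun _ _ _ => rfl
  arch_compact := fun _ _ _ _ => by simp only [Pi.zero_apply, mul_zero]
  ray := fun _ => rfl

theorem isAutomorphicFn_add_863 {𝔫 : Ideal (𝓞 K)} {τ : G K → ℂ} {r : G K} {f f' : G K → ℂ}
    (h : T5.IsAutomorphicFn 𝔫 τ r f) (h' : T5.IsAutomorphicFn 𝔫 τ r f') :
    T5.IsAutomorphicFn 𝔫 τ r (f + f') where
  left_inv := fun γ g => by
    simp only [Pi.add_apply, h.left_inv γ g, h'.left_inv γ g]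
  level_inv := fun u hu g => by
    simp only [Pi.add_apply, h.level_inv u hu g, h'.level_inv u hu g]
  arch_compact := fun w k hk g => by
    simp only [Pi.add_apply, h.arch_compact w k hk g, h'.arch_compact w k hk g, mul_add]
  ray := fun g => by
    simp only [Pi.add_apply, h.ray g, h'.ray g]

theorem isAutomorphicFn_smul_863 {𝔫 : Ideal (𝓞 K)} {τ : G K → ℂ} {r : G K} {f : G K → ℂ}
    (a : ℂ) (h : T5.IsAutomorphicFn 𝔫 τ r f) :
    T5.IsAutomorphicFn 𝔫 τ r (a • f) where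
  left_inv := fun γ g => by
    simp only [Pi.smul_apply, h.left_inv γ g]
  level_inv := fun u hu g => by
    simp only [Pi.smul_apply, h.level_inv u hu g]
  arch_compact := fun w k hk g => by
    simp only [Pi.smul_apply, smul_eq_mul, h.arch_compact w k hk g]
    ring
  ray := fun g => by
    simp only [Pi.smul_apply, h.ray g]

/-! ## 2. Cusp functions (`V`) -/

theorem isCuspFn_zero_863 (𝔫 : Ideal (𝓞 K)) (τ : G K → ℂ) (r : G K) :
    T5.IsCuspFn 𝔫 τ r (0 : G K → ℂ) where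
  cont := continuous_const
  bdd := ⟨0, fun g => by simp only [Pi.zero_apply, norm_zero, le_refl]⟩
  aut := isAutomorphicFn_zero_863 𝔫 τ r
  cuspidal := T2.H886.isCuspidalFn_zero886

theorem isCuspFn_add_863 {𝔫 : Ideal (𝓞 K)} {τ : G K → ℂ} {r : G K} {f f' : G K → ℂ}
    (h : T5.IsCuspFn 𝔫 τ r f) (h' : T5.IsCuspFn 𝔫 τ r f') :
    T5.IsCuspFn 𝔫 τ r (f + f') where
  cont := h.cont.add h'.cont
  bdd := by
    obtain ⟨C, hC⟩ := h.bdd
    obtain ⟨C', hC'⟩ := h'.bdd
    exact ⟨C + C', fun g => (norm_add_le _ _).trans (add_le_add (hC g) (hC' g))⟩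
  aut := isAutomorphicFn_add_863 h.aut h'.aut
  cuspidal := by
    obtain ⟨C, hC⟩ := h.bdd
    obtain ⟨C', hC'⟩ := h'.bdd
    exact T2.H886.isCuspidalFn_add886 h.cont hC h'.cont hC' h.cuspidal h'.cuspidal

theorem isCuspFn_smul_863 {𝔫 : Ideal (𝓞 K)} {τ : G K → ℂ} {r : G K} {f : G K → ℂ}
    (a : ℂ) (h : T5.IsCuspFn 𝔫 τ r f) :
    T5.IsCuspFn 𝔫 τ r (a • f) where
  cont := h.cont.const_smul a
  bdd := by
    obtain ⟨C, hC⟩ := h.bdd
    refine ⟨‖a‖ * C, fun g => ?_⟩
    rw [Pi.smul_apply, norm_smul]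
    exact mul_le_mul_of_nonneg_left (hC g) (norm_nonneg a)
  aut := isAutomorphicFn_smul_863 a h.aut
  cuspidal := T2.H886.isCuspidalFn_const_mul886 a h.cuspidal

/-! ## 3. Invariant cusp functions (`W`) -/

theorem isWFn_zero_863 (𝔫 : Ideal (𝓞 K)) (r : G K) (l : ℕ)
    (o : ℕ → HeightOneSpectrum (𝓞 K)) : IsWFn 𝔫 r l o (0 : G K → ℂ) where
  cusp := isCuspFn_zero_863 𝔫 T5.trivType r
  arch_scalar := fun _ _ _ _ => rfl
  iw := fun _ _ _ _ _ => rfl

theorem isWFn_add_863 {𝔫 : Ideal (𝓞 K)} {r : G K} {l : ℕ} {o : ℕ → HeightOneSpectrum (𝓞 K)}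
    {f f' : G K → ℂ} (h : IsWFn 𝔫 r l o f) (h' : IsWFn 𝔫 r l o f') :
    IsWFn 𝔫 r l o (f + f') where
  cusp := isCuspFn_add_863 h.cusp h'.cusp
  arch_scalar := fun w z hz g => by
    simp only [Pi.add_apply, h.arch_scalar w z hz g, h'.arch_scalar w z hz g]
  iw := fun y h1 h2 h3 x => by
    simp only [Pi.add_apply, h.iw y h1 h2 h3 x, h'.iw y h1 h2 h3 x]

theorem isWFn_smul_863 {𝔫 : Ideal (𝓞 K)} {r : G K} {l : ℕ} {o : ℕ → HeightOneSpectrum (𝓞 K)}
    {f : G K → ℂ} (a : ℂ) (h : IsWFn 𝔫 r l o f) :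
    IsWFn 𝔫 r l o (a • f) where
  cusp := isCuspFn_smul_863 a h.cusp
  arch_scalar := fun w z hz g => by
    simp only [Pi.smul_apply, h.arch_scalar w z hz g]
  iw := fun y h1 h2 h3 x => by
    simp only [Pi.smul_apply, h.iw y h1 h2 h3 x]

/-! ## 4. Hecke eigenfunctions -/

theorem isHeckeEigenAt_add_863 {f f' : G K → ℂ} {v : HeightOneSpectrum (𝓞 K)} {a b : ℂ}
    (h : IsHeckeEigenAt f v a b) (h' : IsHeckeEigenAt f' v a b) :
    IsHeckeEigenAt (f + f') v a b := by
  refine ⟨fun H hH g => ?_, fun z hz g => ?_⟩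
  · simp only [Pi.add_apply, Finset.sum_add_distrib, h.1 H hH g, h'.1 H hH g, mul_add]
  · simp only [Pi.add_apply, h.2 z hz g, h'.2 z hz g, mul_add]

theorem isHeckeEigenAt_smul_863 {f : G K → ℂ} {v : HeightOneSpectrum (𝓞 K)} {a b : ℂ}
    (c : ℂ) (h : IsHeckeEigenAt f v a b) :
    IsHeckeEigenAt (c • f) v a b := by
  refine ⟨fun H hH g => ?_, fun z hz g => ?_⟩
  · simp only [Pi.smul_apply, smul_eq_mul, ← Finset.mul_sum, h.1 H hH g]
    ring
  · simp only [Pi.smul_apply, smul_eq_mul, h.2 z hz g]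
    ring

/-! ## 5. Sphere means -/

theorem continuous_sphere_integrand_863 {w : InfinitePlace K} {d : ℝ} {Y : ℝ → ℝ → G K}
    (hY : ∀ α β : ℝ, IsLocalAtInf w (Y α β) ∧ infComp w (Y α β) = rotZ α * rotY β * torus d)
    {φ : G K → ℂ} (hφ : Continuous φ) (g : G K) :
    Continuous fun p : ℝ × ℝ => φ (g * Y p.1 p.2) * ((Real.sin p.2 : ℝ) : ℂ) := by
  have hYc := T2.H314.continuous_sphere314 hY
  have h1 : Continuous fun p : ℝ × ℝ => φ (g * Y p.1 p.2) :=
    hφ.comp (continuous_const.mul hYc)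
  have h2 : Continuous fun p : ℝ × ℝ => ((Real.sin p.2 : ℝ) : ℂ) :=
    Complex.continuous_ofReal.comp (Real.continuous_sin.comp continuous_snd)
  exact h1.mul h2

theorem continuous_sphere_inner_863 {w : InfinitePlace K} {d : ℝ} {Y : ℝ → ℝ → G K}
    (hY : ∀ α β : ℝ, IsLocalAtInf w (Y α β) ∧ infComp w (Y α β) = rotZ α * rotY β * torus d)
    {φ : G K → ℂ} (hφ : Continuous φ) (g : G K) (α : ℝ) :
    Continuous fun β : ℝ => φ (g * Y α β) * ((Real.sin β : ℝ) : ℂ) := by
  have hYα : Continuous fun β : ℝ => Y α β :=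
    (T2.H314.continuous_sphere314 hY).comp (Continuous.prodMk_right α)
  have h1 : Continuous fun β : ℝ => φ (g * Y α β) :=
    hφ.comp (continuous_const.mul hYα)
  have h2 : Continuous fun β : ℝ => ((Real.sin β : ℝ) : ℂ) :=
    Complex.continuous_ofReal.comp Real.continuous_sin
  exact h1.mul h2

theorem continuous_sphere_outer_863 {w : InfinitePlace K} {d : ℝ} {Y : ℝ → ℝ → G K}
    (hY : ∀ α β : ℝ, IsLocalAtInf w (Y α β) ∧ infComp w (Y α β) = rotZ α * rotY β * torus d)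
    {φ : G K → ℂ} (hφ : Continuous φ) (g : G K) :
    Continuous fun α : ℝ => ∫ β in (0 : ℝ)..Real.pi,
      φ (g * Y α β) * ((Real.sin β : ℝ) : ℂ) := by
  have hu : Continuous (Function.uncurry fun α β : ℝ =>
      φ (g * Y α β) * ((Real.sin β : ℝ) : ℂ)) := continuous_sphere_integrand_863 hY hφ g
  exact intervalIntegral.continuous_parametric_intervalIntegral_of_continuous' hu 0 Real.pi

theorem meanEig_add_863 {f f' : G K → ℂ} (hf : Continuous f) (hf' : Continuous f')
    {w : InfinitePlace K} {m : ℝ → ℂ} (h : MeanEig f w m) (h' : MeanEig f' w m) :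
    MeanEig (f + f') w m := by
  intro d hd Y hY g
  have e1 : ∀ α β : ℝ, (f + f') (g * Y α β) * ((Real.sin β : ℝ) : ℂ)
      = f (g * Y α β) * ((Real.sin β : ℝ) : ℂ) + f' (g * Y α β) * ((Real.sin β : ℝ) : ℂ) :=
    fun α β => by rw [Pi.add_apply, add_mul]
  simp only [e1]
  have e2 : ∀ α : ℝ, (∫ β in (0 : ℝ)..Real.pi,
      (f (g * Y α β) * ((Real.sin β : ℝ) : ℂ) + f' (g * Y α β) * ((Real.sin β : ℝ) : ℂ)))
      = (∫ β in (0 : ℝ)..Real.pi, f (g * Y α β) * ((Real.sin β : ℝ) : ℂ))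
        + ∫ β in (0 : ℝ)..Real.pi, f' (g * Y α β) * ((Real.sin β : ℝ) : ℂ) :=
    fun α => intervalIntegral.integral_add
      ((continuous_sphere_inner_863 hY hf g α).intervalIntegrable _ _)
      ((continuous_sphere_inner_863 hY hf' g α).intervalIntegrable _ _)
  simp only [e2]
  rw [intervalIntegral.integral_add
      ((continuous_sphere_outer_863 hY hf g).intervalIntegrable _ _)
      ((continuous_sphere_outer_863 hY hf' g).intervalIntegrable _ _),
    h d hd Y hY g, h' d hd Y hY g, Pi.add_apply, mul_add]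

theorem meanEig_smul_863 {f : G K → ℂ} {w : InfinitePlace K} {m : ℝ → ℂ} (a : ℂ)
    (h : MeanEig f w m) : MeanEig (a • f) w m := by
  intro d hd Y hY g
  have e1 : ∀ α β : ℝ, (a • f) (g * Y α β) * ((Real.sin β : ℝ) : ℂ)
      = a * (f (g * Y α β) * ((Real.sin β : ℝ) : ℂ)) :=
    fun α β => by rw [Pi.smul_apply, smul_eq_mul, mul_assoc]
  simp only [e1]
  simp only [intervalIntegral.integral_const_mul]
  rw [h d hd Y hY g, Pi.smul_apply, smul_eq_mul]
  ring

/-! ## 6. The eigen-classes -/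

theorem isEigFn_add_863 {𝔫 : Ideal (𝓞 K)} {r : G K} {l : ℕ} {o : ℕ → HeightOneSpectrum (𝓞 K)}
    {c : EigData K} {f f' : G K → ℂ} (h : IsEigFn 𝔫 r l o f c) (h' : IsEigFn 𝔫 r l o f' c) :
    IsEigFn 𝔫 r l o (f + f') c where
  inv := isWFn_add_863 h.inv h'.inv
  hecke := fun v hv => isHeckeEigenAt_add_863 (h.hecke v hv) (h'.hecke v hv)
  mean := fun w => meanEig_add_863 h.inv.cusp.cont h'.inv.cusp.cont (h.mean w) (h'.mean w)

theorem isEigFn_smul_863 {𝔫 : Ideal (𝓞 K)} {r : G K} {l : ℕ} {o : ℕ → HeightOneSpectrum (𝓞 K)}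
    {c : EigData K} {f : G K → ℂ} (a : ℂ) (h : IsEigFn 𝔫 r l o f c) :
    IsEigFn 𝔫 r l o (a • f) c where
  inv := isWFn_smul_863 a h.inv
  hecke := fun v hv => isHeckeEigenAt_smul_863 a (h.hecke v hv)
  mean := fun w => meanEig_smul_863 a (h.mean w)

/-! ## 7. The leaf -/

/-- **T7.L2.3.5.2** (`SD534.WSubC`): `V`, `W` and the eigen-classes are linear subspaces. -/
theorem wSubC_863 (K : Type) [Field K] [NumberField K] : WSubC K := fun 𝔫 r u =>
  { zeroW := isWFn_zero_863 𝔫 r 1 (fun _ => u)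
    addV := fun _ _ h h' => isCuspFn_add_863 h h'
    smulV := fun a _ h => isCuspFn_smul_863 a h
    addW := fun _ _ h h' => isWFn_add_863 h h'
    smulW := fun a _ h => isWFn_smul_863 a h
    addC := fun _ _ _ h h' => isEigFn_add_863 h h'
    smulC := fun _ a _ h => isEigFn_smul_863 a h }

end Fermat.Agent.LT.T7.H863

end
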