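import Fermat.Agent.LT.T7.H193.NatMatchSpec

/-!
# Row LT, tower T7, leaf T7.L2.1.NM1 (`H193.FlatNatC`) -- helper863, OFF-MAIN

The frozen Prop `Fermat.Agent.LT.T7.H193.FlatNatC K` (VERBATIM, from
`Fermat/Agent/LT/T7/H193/NatMatchSpec.lean`): the summand of the twisted kernel of a torus mean
is the mean of the summands of the translates,

    twTerm r s (nat193 a D φ) δ x = vol(D)⁻¹ ∫_D twTerm r s (trl193 (a t) φ) δ x dt.

Proof.  `twTerm r s ψ δ x = ∑'_m ψ(y r^m)`, `y = x⁻¹ δ σ(x)`.  With the continuous additive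
function `L(g) = log |det g_w|` (`w` ONE infinite place; `L(r) = 2 log t ≠ 0`): if
`φ(y r^m a(t)⁻¹) ≠ 0` with `t ∈ D`, then `|m| |L r| ≤ sup_{supp φ} |L| + |L y| + sup_{cl D} |L ∘ a|`.
So both sides are sums over ONE finite set of `m`, and the finite sum commutes with the integral
over `D` (continuous integrands, `cl D` compact).  The hypothesis `T1.T1Out K` is not used.

Every proof is complete.
-/

set_option autoImplicit false

open IsDedekindDomain NumberField MeasureTheory

noncomputable section

namespace Fermat.Agent.LT.T7.H863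

open Fermat.Agent.LT.H556 Fermat.Agent.LT.H556.A0 Fermat.Agent.LT Fermat.Agent.LT.T7.H193

attribute [local instance] Fermat.Agent.LT.T5.instMeasurableSpaceG

variable {K : Type} [Field K] [NumberField K]

/-- The component at one infinite place is continuous. -/
theorem continuous_infHom863 (w : InfinitePlace K) : Continuous (T5.infHom w) :=
  (InfinitePlace.Completion.isometry_extensionEmbedding w).continuous.comp
    ((continuous_apply w).comp continuous_fst)

/-- `g ↦ |det g_w|`. -/
def detSz863 (w : InfinitePlace K) (g : G K) : ℝ :=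
  ‖T5.infHom w ((g : Matrix (Fin 2) (Fin 2) (Adl K)).det)‖

theorem continuous_detSz863 (w : InfinitePlace K) : Continuous (detSz863 (K := K) w) := by
  have h1 : Continuous fun g : G K => (g : Matrix (Fin 2) (Fin 2) (Adl K)) :=
    Units.continuous_val
  exact continuous_norm.comp ((continuous_infHom863 w).comp h1.matrix_det)

theorem detSz863_one (w : InfinitePlace K) : detSz863 w (1 : G K) = 1 := by
  simp [detSz863]

theorem detSz863_mul (w : InfinitePlace K) (g h : G K) :
    detSz863 w (g * h) = detSz863 w g * detSz863 w h := by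
  simp [detSz863, Matrix.det_mul]

theorem detSz863_ne_zero (w : InfinitePlace K) (g : G K) : detSz863 w g ≠ 0 := by
  intro h
  have h1 := detSz863_mul w g g⁻¹
  rw [mul_inv_cancel, detSz863_one, h, zero_mul] at h1
  exact one_ne_zero h1

/-- `L(g) = log |det g_w|`. -/
def logSz863 (w : InfinitePlace K) (g : G K) : ℝ := Real.log (detSz863 w g)

theorem continuous_logSz863 (w : InfinitePlace K) : Continuous (logSz863 (K := K) w) :=
  (continuous_detSz863 w).log (detSz863_ne_zero w)

theorem logSz863_one (w : InfinitePlace K) : logSz863 w (1 : G K) = 0 := by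
  simp [logSz863, detSz863_one]

theorem logSz863_mul (w : InfinitePlace K) (g h : G K) :
    logSz863 w (g * h) = logSz863 w g + logSz863 w h := by
  unfold logSz863
  rw [detSz863_mul, Real.log_mul (detSz863_ne_zero w g) (detSz863_ne_zero w h)]

theorem logSz863_inv (w : InfinitePlace K) (g : G K) : logSz863 w g⁻¹ = -logSz863 w g := by
  have h1 := logSz863_mul w g g⁻¹
  rw [mul_inv_cancel, logSz863_one] at h1
  linarith

theorem logSz863_zpow (w : InfinitePlace K) (g : G K) (m : ℤ) :
    logSz863 w (g ^ m) = m * logSz863 w g := by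
  induction m using Int.induction_on with
  | zero => simp [logSz863_one]
  | succ n ih => rw [zpow_add_one, logSz863_mul, ih]; push_cast; ring
  | pred n ih => rw [zpow_sub_one, logSz863_mul, logSz863_inv, ih]; push_cast; ring

/-- `L(r) ≠ 0` for the generator of the ray. -/
theorem logSz863_rayGen_ne_zero (w : InfinitePlace K) {r : G K} (hr : T5.IsRayGen r) :
    logSz863 w r ≠ 0 := by
  obtain ⟨-, t, ht0, ht2, hinf⟩ := hr
  have hdet : T5.infHom w ((r : Matrix (Fin 2) (Fin 2) (Adl K)).det) = ((t : ℂ)) ^ 2 := by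
    rw [RingHom.map_det, RingHom.mapMatrix_apply, ← T5.infComp_eq_map, hinf w,
      Matrix.det_diagonal]
    simp [sq]
  have hsz : detSz863 w r = t ^ 2 := by
    unfold detSz863
    rw [hdet, norm_pow, Complex.norm_real, Real.norm_eq_abs, abs_of_pos ht0]
  unfold logSz863
  rw [hsz]
  intro h
  have hpos : 0 < t ^ 2 := by positivity
  rcases Real.log_eq_zero.mp h with h0 | h1 | h2
  · exact hpos.ne' h0
  · have h3 : t ^ (2 * Module.finrank ℚ K) = 1 := by rw [pow_mul, h1, one_pow]
    rw [h3] at ht2
    norm_num at ht2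
  · linarith

/-- The summand of the twisted kernel, unfolded. -/
theorem twTerm_eq_863 (r : G K) (s : T5.AdelicAut K) (ψ : G K → ℂ) (δ : GL (Fin 2) K)
    (x : G K) :
    T5.twTerm r s ψ δ x = ∑' m : ℤ, ψ (x⁻¹ * T5.ratG δ * s.onG x * r ^ m) := rfl

/-- **T7.L2.1.NM1** (`FlatNatC`). -/
theorem flatNatC_863 (K : Type) [Field K] [NumberField K] : FlatNatC K := by
  intro _ s r hr a D ha hDm hDb φ hφ hφc δ x
  obtain ⟨w⟩ : Nonempty (InfinitePlace K) := inferInstance
  set y : G K := x⁻¹ * T5.ratG δ * s.onG x with hy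
  set c : ℂ := (((volume D).toReal : ℝ) : ℂ)⁻¹ with hc
  -- the functions
  let F : ℤ → (InfinitePlace K → ℝ) → ℂ := fun m t => φ (y * r ^ m * (a t)⁻¹)
  have hLHS : T5.twTerm r s (nat193 a D φ) δ x = ∑' m : ℤ, c * ∫ t in D, F m t := rfl
  have hRHS : ∀ t, T5.twTerm r s (trl193 (a t) φ) δ x = ∑' m : ℤ, F m t := fun t => rfl
  rw [hLHS]
  simp only [hRHS]
  -- continuity
  have hFc : ∀ m, Continuous (F m) := fun m =>
    hφ.comp (continuous_const.mul ha.inv)
  -- the bounds
  have hcl : IsCompact (closure D) := hDb.isCompact_closure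
  obtain ⟨B₁, hB₁⟩ := hφc.exists_bound_of_continuousOn
    (continuous_logSz863 w).continuousOn
  obtain ⟨B₂, hB₂⟩ := hcl.exists_bound_of_continuousOn
    ((continuous_logSz863 w).comp ha).continuousOn
  have hL0 : 0 < |logSz863 w r| := abs_pos.mpr (logSz863_rayGen_ne_zero w hr)
  set B : ℝ := B₁ + |logSz863 w y| + B₂ with hB
  set N : ℤ := ⌈B / |logSz863 w r|⌉ with hN
  let S : Finset ℤ := Finset.Icc (-N) N
  have hS : ∀ m : ℤ, m ∉ S → ∀ t ∈ D, F m t = 0 := by
    intro m hm t ht
    by_contra hne
    apply hm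
    have hmem : y * r ^ m * (a t)⁻¹ ∈ tsupport φ := subset_tsupport _ hne
    have h1 := hB₁ _ hmem
    have h2 := hB₂ t (subset_closure ht)
    rw [Real.norm_eq_abs] at h1 h2
    simp only [Function.comp_apply] at h2
    rw [logSz863_mul, logSz863_mul, logSz863_zpow, logSz863_inv] at h1
    have h3 : |(m : ℝ) * logSz863 w r| ≤ B := by
      have e : (m : ℝ) * logSz863 w r
          = (logSz863 w y + (m : ℝ) * logSz863 w r + -logSz863 w (a t))
            - logSz863 w y + logSz863 w (a t) := by ring
      rw [e]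
      calc |(logSz863 w y + (m : ℝ) * logSz863 w r + -logSz863 w (a t))
            - logSz863 w y + logSz863 w (a t)|
          ≤ |(logSz863 w y + (m : ℝ) * logSz863 w r + -logSz863 w (a t))
            - logSz863 w y| + |logSz863 w (a t)| := abs_add_le _ _
        _ ≤ (|logSz863 w y + (m : ℝ) * logSz863 w r + -logSz863 w (a t)|
            + |logSz863 w y|) + |logSz863 w (a t)| := by
            gcongr
            exact abs_sub _ _
        _ ≤ B := by rw [hB]; linarith
    rw [abs_mul] at h3
    have h4 : |(m : ℝ)| ≤ B / |logSz863 w r| := (le_div_iff₀ hL0).mpr h3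
    have h5 : |m| ≤ N := by
      have : ((|m| : ℤ) : ℝ) ≤ ((N : ℤ) : ℝ) := by
        rw [Int.cast_abs]
        exact h4.trans (Int.le_ceil _)
      exact_mod_cast this
    rw [Finset.mem_Icc]
    exact abs_le.mp h5
  -- integrability
  have hFi : ∀ m, IntegrableOn (F m) D volume := fun m =>
    ((hFc m).continuousOn.integrableOn_compact hcl).mono_set subset_closure
  -- the left side
  have hL : ∑' m : ℤ, c * ∫ t in D, F m t = ∑ m ∈ S, c * ∫ t in D, F m t := by
    refine tsum_eq_sum ?_
    intro m hm
    have : ∫ t in D, F m t = 0 := by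
      rw [setIntegral_congr_fun hDm (fun t ht => hS m hm t ht)]
      simp
    rw [this, mul_zero]
  -- the right side
  have hR : ∫ t in D, ∑' m : ℤ, F m t = ∑ m ∈ S, ∫ t in D, F m t := by
    rw [setIntegral_congr_fun hDm
      (fun t ht => tsum_eq_sum (fun m hm => hS m hm t ht))]
    exact integral_finsetSum S (fun m _ => hFi m)
  rw [hL, hR, Finset.mul_sum]

end Fermat.Agent.LT.T7.H863

end
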